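import Fermat.Agent.H16.CH.Main
import Fermat.Agent.CFT.ExistsT

/-!
# `CC.Choice`
-/

set_option autoImplicit false

noncomputable section

namespace Fermat.Agent.H16.CH

open Fermat.Agent.CC (Qb GQ PrimeUnder pP SK CycExt)
open Fermat.Agent.LF (DK DK_mono)
open IsDedekindDomain NumberField
open scoped Pointwise

variable {p : ℕ} [hp : Fact p.Prime]

theorem exT (hp2 : p ≠ 2) : ExT p := fun _ _ hKF B => CFT.exists_T hp2 hKF B

theorem choice (hp2 : p ≠ 2) : CC.Choice p := choice_of (exT hp2) hp2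

/-- (E) with everything unramified outside `S₀` -/
theorem choiceStrong (hp2 : p ≠ 2) (S₀ : Finset Nat.Primes)
    (K₁ : IntermediateField ℚ Qb) (hpS : pP p ∈ S₀) (hK₁ : K₁.IsUnramifiedOutside S₀) :
    ∃ (S : Finset Nat.Primes) (K F K₀ : IntermediateField ℚ Qb),
      S₀ ⊆ S ∧ K₁ ≤ K ∧ K.fixingSubgroup.Normal ∧ SK p S₀ K ∧ CycExt p K F ∧
      F.IsUnramifiedOutside S₀ ∧ K₀ ≤ K ∧ SK p S₀ K₀ ∧ K₀.fixingSubgroup.index.Coprime p ∧
      (∃ n, K.fixingSubgroup.relIndex K₀.fixingSubgroup = p ^ n) ∧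
      (∀ A : ValuationSubring Qb, ∀ q ∈ S, A.LiesOverPrime ((q : Nat.Primes) : ℕ) →
        ¬ DK A K ≤ F.fixingSubgroup) ∧ CC.ClTriv p S K ∧ CC.ClTriv p S K₀ :=
  choiceStrong_of (exT hp2) hp2 S₀ K₁ hpS hK₁

end Fermat.Agent.H16.CH
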