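import Fermat.Agent.H16.CH.Lvl
import Fermat.Agent.H02L.Place

/-!
# The fields `ℚ(μ_{p^n})` inside `ℚbar`
-/

set_option autoImplicit false
set_option linter.style.haveILetI false
set_option linter.unusedSectionVars false

noncomputable section

namespace Fermat.Agent.H16.CH

open Fermat.Agent.CC (Qb GQ PrimeUnder)
open IsDedekindDomain NumberField
open scoped Pointwise

/-- `ℚ(μ_{p^n})` -/
def Cyc (p n : ℕ) : IntermediateField ℚ Qb := IntermediateField.adjoin ℚ {x : Qb | x ^ p ^ n = 1}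

theorem mem_Cyc {p n : ℕ} {x : Qb} (hx : x ^ p ^ n = 1) : x ∈ Cyc p n :=
  IntermediateField.subset_adjoin _ _ hx

theorem mem_fix_Cyc {p n : ℕ} {g : GQ} :
    g ∈ (Cyc p n).fixingSubgroup ↔ ∀ x : Qb, x ^ p ^ n = 1 → g x = x := by
  constructor
  · intro h x hx
    exact (IntermediateField.mem_fixingSubgroup_iff _ _).mp h x (mem_Cyc hx)
  · intro h
    have h1 : Cyc p n ≤ IntermediateField.fixedField (Subgroup.zpowers g) := by
      rw [Cyc, IntermediateField.adjoin_le_iff]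
      intro y hy
      rw [SetLike.mem_coe, IntermediateField.mem_fixedField_iff]
      intro f hf
      have h2 : Subgroup.zpowers g ≤ MulAction.stabilizer GQ y := by
        rw [Subgroup.zpowers_le]
        exact h y hy
      exact h2 hf
    exact (IntermediateField.le_iff_le _ _).mp h1 (Subgroup.mem_zpowers g)

theorem Cyc_mono {p n m : ℕ} (h : n ≤ m) : Cyc p n ≤ Cyc p m := by
  rw [Cyc, IntermediateField.adjoin_le_iff]
  intro y hy
  obtain ⟨c, hc⟩ := pow_dvd_pow p h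
  exact mem_Cyc (by rw [hc, pow_mul, show y ^ p ^ n = 1 from hy, one_pow])

theorem Cyc_eq {p n : ℕ} (hp : p ≠ 0) {ζ : Qb} (hζ : IsPrimitiveRoot ζ (p ^ n)) :
    Cyc p n = IntermediateField.adjoin ℚ {ζ} := by
  haveI : NeZero (p ^ n) := ⟨pow_ne_zero _ hp⟩
  apply le_antisymm
  · rw [Cyc, IntermediateField.adjoin_le_iff]
    intro x hx
    obtain ⟨i, -, rfl⟩ := hζ.eq_pow_of_pow_eq_one (show x ^ p ^ n = 1 from hx)
    exact pow_mem (IntermediateField.mem_adjoin_simple_self ℚ ζ) i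
  · rw [IntermediateField.adjoin_le_iff, Set.singleton_subset_iff]
    exact mem_Cyc hζ.pow_eq_one

theorem fd_Cyc {p : ℕ} (hp : p ≠ 0) (n : ℕ) : FiniteDimensional ℚ (Cyc p n) := by
  obtain ⟨ζ, hζ⟩ := exists_prim (p ^ n) (pow_ne_zero _ hp)
  rw [Cyc_eq hp hζ]
  exact IntermediateField.adjoin.finiteDimensional
    (hζ.isIntegral (Nat.pos_of_ne_zero (pow_ne_zero _ hp))).tower_top

theorem normal_fix_Cyc (p n : ℕ) : (Cyc p n).fixingSubgroup.Normal := by
  refine ⟨fun g hg s => ?_⟩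
  rw [mem_fix_Cyc] at hg ⊢
  intro x hx
  have h1 : g (s⁻¹ x) = s⁻¹ x := hg _ (by rw [← map_pow, hx, map_one])
  rw [AlgEquiv.mul_apply, AlgEquiv.mul_apply, h1]
  exact AlgEquiv.apply_symm_apply s x

theorem unr_Cyc {p : ℕ} (hp : p.Prime) (n : ℕ) {S : Finset Nat.Primes} (hS : (⟨p, hp⟩ : Nat.Primes) ∈ S) :
    (Cyc p n).IsUnramifiedOutside S := by
  refine ⟨fd_Cyc hp.ne_zero n, fun q hq A hA τ hτ => ?_⟩
  rw [mem_fix_Cyc]
  intro x hx
  refine H05.inertia_apply_rootOfUnity q.2 hA (m := p ^ n) ?_ hτ hx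
  intro hd
  apply hq
  have h1 : (q : ℕ) = p := (Nat.prime_dvd_prime_iff_eq q.2 hp).mp (q.2.dvd_of_dvd_pow hd)
  have h2 : q = (⟨p, hp⟩ : Nat.Primes) := Subtype.ext h1
  rw [h2]
  exact hS

theorem isCyc {p n : ℕ} (hp : p ≠ 0) :
    IsCyclotomicExtension {p ^ n} ℚ (Cyc p n) := by
  haveI : NeZero (p ^ n) := ⟨pow_ne_zero _ hp⟩
  obtain ⟨ζ, hζ⟩ := exists_prim (p ^ n) (pow_ne_zero _ hp)
  rw [Cyc_eq hp hζ]
  exact hζ.intermediateField_adjoin_isCyclotomicExtension ℚ

/-- the prime of `ℚ(μ_{p^n})` under a place over `p` is unique -/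
theorem asIdeal_unique {p : ℕ} [hp : Fact p.Prime] (k : ℕ) [NumberField (Cyc p (k + 1))]
    {A B : ValuationSubring Qb} (hA : A.LiesOverPrime p) (hB : B.LiesOverPrime p)
    {v w : HeightOneSpectrum (𝓞 (Cyc p (k + 1)))} (hv : PrimeUnder A (Cyc p (k + 1)) v)
    (hw : PrimeUnder B (Cyc p (k + 1)) w) : v = w := by
  haveI hc := isCyc (p := p) (n := k + 1) hp.out.ne_zero
  have key : ∀ (A : ValuationSubring Qb) (v : HeightOneSpectrum (𝓞 (Cyc p (k + 1)))),
      A.LiesOverPrime p → PrimeUnder A (Cyc p (k + 1)) v →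
      v.asIdeal = Ideal.span {hc.zeta_spec.toInteger - 1} := by
    intro A v hA hv
    haveI : v.asIdeal.IsPrime := v.isPrime
    haveI : v.asIdeal.LiesOver (Ideal.span {(p : ℤ)}) := by
      rw [Ideal.liesOver_iff]
      refine Ideal.IsMaximal.eq_of_le (Int.ideal_span_isMaximal_of_prime p)
        Ideal.IsPrime.ne_top' ?_
      rw [Ideal.span_singleton_le_iff_mem, Ideal.mem_comap, algebraMap_int_eq, map_natCast,
        ← H02L.primeOf_of_primeUnder hv, L00.Unr.mem_primeOf]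
      have : (((p : 𝓞 (Cyc p (k + 1))) : Cyc p (k + 1)) : Qb) = (p : Qb) := by push_cast; rfl
      rw [this]
      exact hA
    exact IsCyclotomicExtension.Rat.eq_span_zeta_sub_one_of_liesOver p k _ hc.zeta_spec v.asIdeal
  apply HeightOneSpectrum.ext
  rw [key A v hA hv, key B w hB hw]

/-- the decomposition group of a place over `p` acts on `μ_{p^n}` through everything -/
theorem exists_dec_p {p : ℕ} [hp : Fact p.Prime] (n : ℕ) {A : ValuationSubring Qb}
    (hA : A.LiesOverPrime p) (g : GQ) :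
    ∃ h ∈ A.decompositionSubgroup ℚ, ∀ x : Qb, x ^ p ^ n = 1 → h x = g x := by
  cases n with
  | zero =>
    refine ⟨1, one_mem _, fun x hx => ?_⟩
    rw [pow_zero, pow_one] at hx
    rw [hx, map_one, map_one]
  | succ k =>
    haveI := fd_Cyc hp.out.ne_zero (k + 1)
    haveI : NumberField (Cyc p (k + 1)) := ⟨⟩
    have hB : (g • A).LiesOverPrime p := (H05.liesOverPrime_smul_iff g A p).mpr hA
    have hv := H02L.primeUnder_plc hp.out hA (Cyc p (k + 1))
    have hw := H02L.primeUnder_plc hp.out hB (Cyc p (k + 1))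
    have he := asIdeal_unique k hA hB hv hw
    rw [← he] at hw
    obtain ⟨t, ht, htA⟩ := H02L.exists_conj hp.out hA hv hw
    refine ⟨t⁻¹ * g, ?_, fun x hx => ?_⟩
    · rw [ValuationSubring.decompositionSubgroup, MulAction.mem_stabilizer_iff, mul_smul, ← htA,
        inv_smul_smul]
    · have h1 := mem_fix_Cyc.mp (inv_mem ht) (g x) (by rw [← map_pow, hx, map_one])
      rw [AlgEquiv.mul_apply, h1]

/-- an element of `G_ℚ` with prescribed action on `μ_m` -/
theorem exists_gal {m a : ℕ} (hm : m ≠ 0) (ha : a.Coprime m) :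
    ∃ g : GQ, ∀ x : Qb, x ^ m = 1 → g x = x ^ a := by
  haveI : NeZero m := ⟨hm⟩
  haveI := H51.isGalois_Qbar
  obtain ⟨ζ, hζ⟩ := exists_prim m hm
  have h1 := hζ.minpoly_eq_pow_coprime ha
  have hi : IsIntegral ℤ ζ := hζ.isIntegral (Nat.pos_of_ne_zero hm)
  have h2 : minpoly ℚ ζ = minpoly ℚ (ζ ^ a) := by
    rw [minpoly.isIntegrallyClosed_eq_field_fractions' ℚ hi,
      minpoly.isIntegrallyClosed_eq_field_fractions' ℚ (hi.pow a)]
    exact congrArg (Polynomial.map (algebraMap ℤ ℚ)) h1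
  obtain ⟨g, hg⟩ := Normal.minpoly_eq_iff_mem_orbit (E := Qb) |>.mp h2
  refine ⟨g⁻¹, fun x hx => ?_⟩
  have hg' : g (ζ ^ a) = ζ := hg
  have hg2 : g⁻¹ ζ = ζ ^ a := by
    have h3 := AlgEquiv.symm_apply_apply g (ζ ^ a)
    rw [hg'] at h3
    exact h3
  obtain ⟨i, -, rfl⟩ := hζ.eq_pow_of_pow_eq_one hx
  rw [map_pow, hg2, ← pow_mul, ← pow_mul, mul_comm]

end Fermat.Agent.H16.CH
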