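import Fermat.Agent.H16.CH.Cyc

/-!
# Index of `U ∩ G_{ℚ(μ_{p^(n+1)})}` in `U`
-/

set_option autoImplicit false
set_option linter.style.haveILetI false
set_option linter.unusedSectionVars false

noncomputable section

namespace Fermat.Agent.H16.CH

open Fermat.Agent.CC (Qb GQ PrimeUnder)
open IsDedekindDomain NumberField
open scoped Pointwise

variable {p : ℕ} [hp : Fact p.Prime] {U : Subgroup GQ} {n : ℕ}

/-- `g ↦ g(ζ)/ζ` -/
def chi (U : Subgroup GQ) (n : ℕ) (hn : 1 ≤ n) (hU : U ≤ (Cyc p n).fixingSubgroup)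
    {ζ : Qb} (hζ : IsPrimitiveRoot ζ (p ^ (n + 1))) : U →* Qbˣ where
  toFun g := Units.mk0 ((g : GQ) ζ / ζ) (by
    have h0 : ζ ≠ 0 := hζ.ne_zero (pow_ne_zero _ hp.out.ne_zero)
    exact div_ne_zero (by rwa [Ne, EmbeddingLike.map_eq_zero_iff]) h0)
  map_one' := by
    have h0 : ζ ≠ 0 := hζ.ne_zero (pow_ne_zero _ hp.out.ne_zero)
    ext
    simp [h0]
  map_mul' := by
    intro g h
    have h0 : ζ ≠ 0 := hζ.ne_zero (pow_ne_zero _ hp.out.ne_zero)
    ext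
    have h1 : ((h : GQ) ζ / ζ) ^ p ^ n = 1 := by
      have h2 : (ζ ^ p) ^ p ^ n = 1 := by
        rw [← pow_mul, ← pow_succ', hζ.pow_eq_one]
      have h3 := mem_fix_Cyc.mp (hU h.2) _ h2
      rw [div_pow]
      have h4 : ∃ c, p ^ n = p * c := dvd_pow_self p (by omega)
      obtain ⟨c, hc⟩ := h4
      have h5 : (h : GQ) ζ ^ p ^ n = ζ ^ p ^ n := by
        rw [hc, pow_mul, ← map_pow, h3, ← pow_mul]
      rw [h5, div_self (pow_ne_zero _ h0)]
    have h2 := mem_fix_Cyc.mp (hU g.2) _ h1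
    have h3 : (h : GQ) ζ = ((h : GQ) ζ / ζ) * ζ := by rw [div_mul_cancel₀ _ h0]
    have h4 : ((g * h : U) : GQ) ζ = (g : GQ) ((h : GQ) ζ) := rfl
    change ((g * h : U) : GQ) ζ / ζ = ((g : GQ) ζ / ζ) * ((h : GQ) ζ / ζ)
    rw [h4, h3, map_mul, h2]
    field_simp

theorem ker_chi (hn : 1 ≤ n) (hU : U ≤ (Cyc p n).fixingSubgroup)
    {ζ : Qb} (hζ : IsPrimitiveRoot ζ (p ^ (n + 1))) :
    (chi U n hn hU hζ).ker = (Cyc p (n + 1)).fixingSubgroup.subgroupOf U := by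
  have h0 : ζ ≠ 0 := hζ.ne_zero (pow_ne_zero _ hp.out.ne_zero)
  haveI : NeZero (p ^ (n + 1)) := ⟨pow_ne_zero _ hp.out.ne_zero⟩
  ext g
  rw [MonoidHom.mem_ker, Subgroup.mem_subgroupOf, mem_fix_Cyc, Units.ext_iff]
  change (g : GQ) ζ / ζ = 1 ↔ _
  rw [div_eq_one_iff_eq h0]
  constructor
  · intro h x hx
    obtain ⟨i, -, rfl⟩ := hζ.eq_pow_of_pow_eq_one hx
    rw [map_pow, h]
  · intro h
    exact h ζ hζ.pow_eq_one

theorem range_chi (hn : 1 ≤ n) (hU : U ≤ (Cyc p n).fixingSubgroup)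
    {ζ : Qb} (hζ : IsPrimitiveRoot ζ (p ^ (n + 1))) :
    (chi U n hn hU hζ).range ≤ rootsOfUnity p Qb := by
  rintro _ ⟨g, rfl⟩
  have h0 : ζ ≠ 0 := hζ.ne_zero (pow_ne_zero _ hp.out.ne_zero)
  rw [mem_rootsOfUnity, Units.ext_iff]
  change ((g : GQ) ζ / ζ) ^ p = 1
  have h2 : (ζ ^ p) ^ p ^ n = 1 := by
    rw [← pow_mul, ← pow_succ', hζ.pow_eq_one]
  have h3 := mem_fix_Cyc.mp (hU g.2) _ h2
  rw [div_pow, ← map_pow, h3, div_self (pow_ne_zero _ h0)]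

theorem relIndex_or (hn : 1 ≤ n) (hU : U ≤ (Cyc p n).fixingSubgroup) :
    (Cyc p (n + 1)).fixingSubgroup.relIndex U = 1 ∨
      (Cyc p (n + 1)).fixingSubgroup.relIndex U = p := by
  obtain ⟨ζ, hζ⟩ := exists_prim (p ^ (n + 1)) (pow_ne_zero _ hp.out.ne_zero)
  have h1 : (Cyc p (n + 1)).fixingSubgroup.relIndex U =
      Nat.card (chi U n hn hU hζ).range := by
    rw [← Subgroup.index_ker, ker_chi, Subgroup.relIndex]
  haveI : NeZero p := ⟨hp.out.ne_zero⟩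
  have h2 : Nat.card (rootsOfUnity p Qb) = p := by
    obtain ⟨ξ, hξ⟩ := exists_prim p hp.out.ne_zero
    exact hξ.card_rootsOfUnity
  have h3 := Subgroup.card_dvd_of_le (range_chi hn hU hζ)
  rw [← h1, h2, Nat.dvd_prime hp.out] at h3
  exact h3

theorem relIndex_eq (hn : 1 ≤ n) (hU : U ≤ (Cyc p n).fixingSubgroup)
    (h : ¬ U ≤ (Cyc p (n + 1)).fixingSubgroup) :
    (Cyc p (n + 1)).fixingSubgroup.relIndex U = p := by
  rcases relIndex_or hn hU with h1 | h1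
  · exact absurd (Subgroup.relIndex_eq_one.mp h1) h
  · exact h1

/-- `[U : U ∩ G_{ℚ(μ_{p^(n+1)})}]` is a power of `p` if `U` fixes `μ_p` -/
theorem relIndex_pow (hU : U ≤ (Cyc p 1).fixingSubgroup) (n : ℕ) :
    ∃ k, (Cyc p (n + 1)).fixingSubgroup.relIndex U = p ^ k := by
  induction n with
  | zero =>
    exact ⟨0, by rw [pow_zero, zero_add]; exact Subgroup.relIndex_eq_one.mpr hU⟩
  | succ n ih =>
    obtain ⟨k, hk⟩ := ih
    have h1 : (Cyc p (n + 1 + 1)).fixingSubgroup ≤ (Cyc p (n + 1)).fixingSubgroup :=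
      IntermediateField.fixingSubgroup_antitone (Cyc_mono (by omega))
    have h2 := Subgroup.relIndex_inf_mul_relIndex (Cyc p (n + 1 + 1)).fixingSubgroup
      (Cyc p (n + 1)).fixingSubgroup U
    rw [inf_eq_left.mpr h1, hk] at h2
    rcases relIndex_or (U := (Cyc p (n + 1)).fixingSubgroup ⊓ U) (n := n + 1) (p := p) (by omega)
      inf_le_left with h3 | h3
    · exact ⟨k, by rw [← h2, h3, one_mul]⟩
    · exact ⟨k + 1, by rw [← h2, h3, pow_succ']⟩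

end Fermat.Agent.H16.CH
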