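import Fermat.Agent.H05_Cyclo
import Fermat.Agent.CC.GQ

/-!
# The level of an element of `G_ℚ` on the `p`-power roots of unity
-/

set_option autoImplicit false
set_option linter.style.haveILetI false

namespace Fermat.Agent.H16.CH

open Fermat.Agent.CC (Qb GQ)

/-- `g` acts trivially on `μ_{p^k}` and non-trivially on `μ_{p^(k+1)}` -/
def Lvl (p : ℕ) (g : GQ) (k : ℕ) : Prop :=
  (∀ x : Qb, x ^ p ^ k = 1 → g x = x) ∧ ∃ x : Qb, x ^ p ^ (k + 1) = 1 ∧ g x ≠ x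

theorem exists_prim (n : ℕ) (hn : n ≠ 0) : ∃ ζ : Qb, IsPrimitiveRoot ζ n := by
  haveI : NeZero n := ⟨hn⟩
  exact HasEnoughRootsOfUnity.exists_primitiveRoot Qb n

/-- exponent of the action on `μ_m` -/
theorem exists_exp (g : GQ) {m : ℕ} (hm : m ≠ 0) :
    ∃ a : ℕ, 1 ≤ a ∧ ∀ x : Qb, x ^ m = 1 → g x = x ^ a := by
  haveI : NeZero m := ⟨hm⟩
  obtain ⟨ζ, hζ⟩ := exists_prim m hm
  have h1 : (g ζ) ^ m = 1 := by rw [← map_pow, hζ.pow_eq_one, map_one]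
  obtain ⟨a, -, ha⟩ := hζ.eq_pow_of_pow_eq_one h1
  refine ⟨a + m, by omega, fun x hx => ?_⟩
  obtain ⟨i, -, rfl⟩ := hζ.eq_pow_of_pow_eq_one hx
  rw [pow_add, hx, mul_one, map_pow, ← ha, ← pow_mul, ← pow_mul, mul_comm a i]

theorem fix_iff {p : ℕ} (hp : p ≠ 0) {g : GQ} {n k a : ℕ} (hk : k ≤ n) (ha : 1 ≤ a)
    (h : ∀ x : Qb, x ^ p ^ n = 1 → g x = x ^ a) :
    (∀ x : Qb, x ^ p ^ k = 1 → g x = x) ↔ p ^ k ∣ a - 1 := by
  have hle : ∀ x : Qb, x ^ p ^ k = 1 → x ^ p ^ n = 1 := by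
    intro x hx
    obtain ⟨c, hc⟩ := pow_dvd_pow p hk
    rw [hc, pow_mul, hx, one_pow]
  constructor
  · intro h1
    obtain ⟨ζ, hζ⟩ := exists_prim (p ^ k) (pow_ne_zero _ hp)
    have h2 := h1 ζ hζ.pow_eq_one
    rw [h ζ (hle ζ hζ.pow_eq_one)] at h2
    have hζ0 : ζ ≠ 0 := hζ.ne_zero (pow_ne_zero _ hp)
    apply hζ.dvd_of_pow_eq_one
    have h3 : ζ ^ (a - 1) * ζ = 1 * ζ := by
      rw [← pow_succ, Nat.sub_add_cancel ha, h2, one_mul]
    exact mul_right_cancel₀ hζ0 h3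
  · rintro ⟨c, hc⟩ x hx
    rw [h x (hle x hx)]
    have : a = p ^ k * c + 1 := by omega
    rw [this, pow_add, pow_mul, hx, one_pow, one_mul, pow_one]

theorem lvl_iff {p : ℕ} (hp : p ≠ 0) {g : GQ} {n k a : ℕ} (hk : k + 1 ≤ n) (ha : 1 ≤ a)
    (h : ∀ x : Qb, x ^ p ^ n = 1 → g x = x ^ a) :
    Lvl p g k ↔ p ^ k ∣ a - 1 ∧ ¬ p ^ (k + 1) ∣ a - 1 := by
  rw [Lvl, fix_iff hp (by omega) ha h, ← fix_iff hp hk ha h]
  push Not
  rfl

theorem Lvl.unique {p : ℕ} {g : GQ} {k l : ℕ} (hk : Lvl p g k) (hl : Lvl p g l) : k = l := by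
  have key : ∀ k l : ℕ, Lvl p g k → Lvl p g l → ¬ k < l := by
    intro k l hk hl hkl
    obtain ⟨x, hx, hne⟩ := hk.2
    apply hne
    apply hl.1
    obtain ⟨c, hc⟩ := pow_dvd_pow p (show k + 1 ≤ l from hkl)
    rw [hc, pow_mul, hx, one_pow]
  have h1 := key k l hk hl
  have h2 := key l k hl hk
  omega

/-- there is a level as soon as some `p`-power root of unity is moved -/
theorem exists_lvl {p : ℕ} {g : GQ} (h1 : ∀ x : Qb, x ^ p = 1 → g x = x)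
    {n : ℕ} {x : Qb} (hx : x ^ p ^ n = 1) (hne : g x ≠ x) : ∃ k, 1 ≤ k ∧ k + 1 ≤ n ∧ Lvl p g k := by
  classical
  have hex : ∃ n : ℕ, ∃ x : Qb, x ^ p ^ n = 1 ∧ g x ≠ x := ⟨n, x, hx, hne⟩
  have hm := Nat.find_spec hex
  have hmin := fun l => Nat.find_min hex (m := l)
  have hle : Nat.find hex ≤ n := Nat.find_min' hex ⟨x, hx, hne⟩
  set m := Nat.find hex
  have h2 : 2 ≤ m := by
    by_contra hlt
    obtain ⟨y, hy, hyne⟩ := hm
    have : m = 0 ∨ m = 1 := by omega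
    rcases this with h | h
    · rw [h, pow_zero, pow_one] at hy
      exact hyne (by rw [hy, map_one])
    · rw [h, pow_one] at hy
      exact hyne (h1 y hy)
  refine ⟨m - 1, by omega, by omega, ?_, ?_⟩
  · intro y hy
    by_contra hyne
    exact hmin (m - 1) (by omega) ⟨y, hy, hyne⟩
  · rw [Nat.sub_add_cancel (by omega)]
    exact hm

theorem padic_iff {p : ℕ} [hp : Fact p.Prime] {b k : ℕ} (hb : b ≠ 0) :
    (p ^ k ∣ b ∧ ¬ p ^ (k + 1) ∣ b) ↔ padicValNat p b = k := by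
  rw [padicValNat_dvd_iff_le hb, padicValNat_dvd_iff_le hb]
  omega

/-- powers: if `g` acts by `a ≡ 1 (mod p)` then `g^m` has level `v_p(a-1) + v_p(m)`. -/
theorem lvl_pow {p : ℕ} [hp : Fact p.Prime] (hp2 : p ≠ 2) {g : GQ} {n k a m : ℕ} (hk : 1 ≤ k)
    (hm : m ≠ 0) (ha : 1 ≤ a) (h : ∀ x : Qb, x ^ p ^ n = 1 → g x = x ^ a)
    (hk1 : p ^ k ∣ a - 1) (hk2 : ¬ p ^ (k + 1) ∣ a - 1)
    (hn : k + padicValNat p m + 1 ≤ n) : Lvl p (g ^ m) (k + padicValNat p m) := by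
  have hp0 : p ≠ 0 := hp.out.ne_zero
  have ha1 : a - 1 ≠ 0 := by
    intro h0
    exact hk2 (h0 ▸ dvd_zero _)
  have hv : padicValNat p (a - 1) = k := (padic_iff ha1).mp ⟨hk1, hk2⟩
  have hpa : p ∣ a - 1 := dvd_trans (dvd_pow_self p (by omega)) hk1
  have hpow : ∀ x : Qb, x ^ p ^ n = 1 → (g ^ m) x = x ^ (a ^ m) := by
    intro x hx
    clear hn hm
    induction m with
    | zero => rw [pow_zero, pow_zero, pow_one]; rfl
    | succ m ih =>
      rw [pow_succ', AlgEquiv.mul_apply, ih, map_pow, h x hx, ← pow_mul, pow_succ' a]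
  have hpow1 : 1 ≤ a ^ m := Nat.one_le_pow _ _ (by omega)
  rw [lvl_iff hp0 hn hpow1 hpow]
  have hval : padicValNat p (a ^ m - 1) = k + padicValNat p m := by
    have := padicValNat.pow_sub_pow (p := p) (x := a) (y := 1)
      ((hp.out.eq_two_or_odd').resolve_left hp2) (by omega) hpa
      (fun hd => by
        have h3 : p ∣ 1 := by
          have := Nat.dvd_sub hd hpa
          rwa [Nat.sub_sub_self ha] at this
        exact hp.out.one_lt.ne' (Nat.dvd_one.mp h3)) hm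
    rw [one_pow, hv] at this
    exact this
  have hne : a ^ m - 1 ≠ 0 := by
    have h2 : 2 ≤ a := by omega
    have : 2 ≤ a ^ m := le_trans h2 (Nat.le_self_pow hm a)
    omega
  exact (padic_iff hne).mpr hval

theorem Lvl.pow {p : ℕ} [hp : Fact p.Prime] (hp2 : p ≠ 2) {g : GQ} {k m : ℕ} (hk : 1 ≤ k)
    (hg : Lvl p g k) (hm : m ≠ 0) : Lvl p (g ^ m) (k + padicValNat p m) := by
  have hp0 : p ≠ 0 := hp.out.ne_zero
  obtain ⟨a, ha, h⟩ := exists_exp g (m := p ^ (k + padicValNat p m + 1)) (pow_ne_zero _ hp0)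
  obtain ⟨h1, h2⟩ := (lvl_iff hp0 (by omega) ha h).mp hg
  exact lvl_pow hp2 hk hm ha h h1 h2 le_rfl

theorem Lvl.pow_prime {p : ℕ} [hp : Fact p.Prime] (hp2 : p ≠ 2) {g : GQ} {k j : ℕ} (hk : 1 ≤ k)
    (hg : Lvl p g k) : Lvl p (g ^ p ^ j) (k + j) := by
  have := hg.pow hp2 hk (m := p ^ j) (pow_ne_zero _ hp.out.ne_zero)
  rwa [padicValNat.prime_pow] at this

theorem Lvl.conj {p : ℕ} {g : GQ} {k : ℕ} (hg : Lvl p g k) (s : GQ) :
    Lvl p (s * g * s⁻¹) k := by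
  refine ⟨fun x hx => ?_, ?_⟩
  · have h1 : g (s⁻¹ x) = s⁻¹ x := hg.1 _ (by rw [← map_pow, hx, map_one])
    rw [AlgEquiv.mul_apply, AlgEquiv.mul_apply, h1]
    exact AlgEquiv.apply_symm_apply s x
  · obtain ⟨x, hx, hne⟩ := hg.2
    refine ⟨s x, by rw [← map_pow, hx, map_one], fun h => hne ?_⟩
    rw [AlgEquiv.mul_apply, AlgEquiv.mul_apply] at h
    have h2 : s⁻¹ (s x) = x := AlgEquiv.symm_apply_apply s x
    rw [h2] at h
    exact s.injective h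

/-- an element acting by `x ↦ x ^ a` on the `p`-power roots of unity, with `a > 1` and
`a ^ m ≡ 1 (mod p)` -/
theorem lvl_of_exp {p : ℕ} [hp : Fact p.Prime] {g : GQ} {a : ℕ} (ha : 2 ≤ a)
    (h : ∀ (n : ℕ) (x : Qb), x ^ p ^ n = 1 → g x = x ^ a) (hg : ∀ x : Qb, x ^ p = 1 → g x = x) :
    1 ≤ padicValNat p (a - 1) ∧ Lvl p g (padicValNat p (a - 1)) := by
  have hp0 : p ≠ 0 := hp.out.ne_zero
  have hne : a - 1 ≠ 0 := by omega
  have h1 : p ^ 1 ∣ a - 1 := (fix_iff hp0 (n := 1) (k := 1) le_rfl (by omega) (h 1)).mp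
    (by simpa only [pow_one] using hg)
  refine ⟨(padicValNat_dvd_iff_le hne).mp h1, ?_⟩
  rw [lvl_iff hp0 le_rfl (by omega) (h _)]
  exact (padic_iff hne).mpr rfl

end Fermat.Agent.H16.CH
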