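import Fermat.Agent.H16.CH.Nonsplit

/-!
# Choice of the fields and of the set of primes
-/

set_option autoImplicit false
set_option linter.style.haveILetI false
set_option linter.unusedSectionVars false

noncomputable section

namespace Fermat.Agent.H16.CH

open Fermat.Agent.CC (Qb GQ PrimeUnder pP SK CycExt)
open Fermat.Agent.LF (DK DK_mono)
open IsDedekindDomain NumberField
open scoped Pointwise

variable (p : ℕ) [hp : Fact p.Prime]

/-- the class group input -/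
def ExT : Prop := ∀ (K F : IntermediateField ℚ Qb), CycExt p K F → ∀ B : Finset Nat.Primes,
  ∃ T : Finset Nat.Primes,
    (∀ q ∈ T, q ∉ B ∧ ∃ A : ValuationSubring Qb, A.LiesOverPrime ((q : Nat.Primes) : ℕ) ∧
        ¬ DK A K ≤ F.fixingSubgroup ∧ ∃ φ ∈ DK A K, A.IsFrobeniusAt φ ((q : Nat.Primes) : ℕ)) ∧
    ∀ S : Finset Nat.Primes, T ⊆ S → CC.ClTriv p S K

variable {p}

theorem le_of_fix {K L : IntermediateField ℚ Qb} (h : K.fixingSubgroup ≤ L.fixingSubgroup) :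
    L ≤ K := by
  haveI := H51.isGalois_Qbar
  have h1 := (IntermediateField.le_iff_le K.fixingSubgroup L).mpr h
  rwa [InfiniteGalois.fixedField_fixingSubgroup] at h1

/-- the tower -/
theorem exists_tower (hp2 : p ≠ 2) (S₀ : Finset Nat.Primes) (K₁ : IntermediateField ℚ Qb)
    (hpS : pP p ∈ S₀) (hK₁ : K₁.IsUnramifiedOutside S₀) :
    ∃ K F K₀ F₀ : IntermediateField ℚ Qb, K₁ ≤ K ∧ K.fixingSubgroup.Normal ∧
      F.fixingSubgroup.Normal ∧ SK p S₀ K ∧ CycExt p K F ∧ F.IsUnramifiedOutside S₀ ∧ K₀ ≤ K ∧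
      SK p S₀ K₀ ∧ CycExt p K₀ F₀ ∧ K₀.fixingSubgroup.index.Coprime p ∧
      (∃ n, K.fixingSubgroup.relIndex K₀.fixingSubgroup = p ^ n) ∧
      (∀ A : ValuationSubring Qb, ∀ q ∈ S₀, A.LiesOverPrime ((q : Nat.Primes) : ℕ) →
        ¬ DK A K ≤ F.fixingSubgroup) ∧
      (∀ (q : Nat.Primes), q ∉ S₀ → (∃ A : ValuationSubring Qb, A.LiesOverPrime (q : ℕ) ∧
        ¬ DK A K₀ ≤ F₀.fixingSubgroup ∧ ∃ φ ∈ DK A K₀, A.IsFrobeniusAt φ (q : ℕ)) →
        ∀ B : ValuationSubring Qb, B.LiesOverPrime (q : ℕ) → ¬ DK B K ≤ F.fixingSubgroup) := by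
  haveI := H51.isGalois_Qbar
  have hfd₁ := hK₁.1
  -- the normal closure with `μ_p`
  let K' : IntermediateField ℚ Qb := IntermediateField.normalClosure ℚ K₁ Qb ⊔ Cyc p 1
  have hK'unr : K'.IsUnramifiedOutside S₀ :=
    (CC.isUnramifiedOutside_normalClosure hK₁).sup (unr_Cyc hp.out 1 hpS)
  haveI hK'fd : FiniteDimensional ℚ K' := hK'unr.1
  haveI hU'fi := CC.fixingSubgroup_finiteIndex K'
  have hnc : (IntermediateField.normalClosure ℚ K₁ Qb).fixingSubgroup.Normal := by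
    have hn : Normal ℚ (IntermediateField.normalClosure ℚ K₁ Qb) := normalClosure.normal ℚ K₁ Qb
    have : IsGalois ℚ (IntermediateField.normalClosure ℚ K₁ Qb) := IsGalois.mk
    infer_instance
  have hK'fix : K'.fixingSubgroup =
      (IntermediateField.normalClosure ℚ K₁ Qb).fixingSubgroup ⊓ (Cyc p 1).fixingSubgroup :=
    IntermediateField.fixingSubgroup_sup ..
  have hinf : ∀ {H₁ H₂ : Subgroup GQ}, H₁.Normal → H₂.Normal → (H₁ ⊓ H₂).Normal := by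
    intro H₁ H₂ h₁ h₂
    exact ⟨fun g hg s => ⟨h₁.conj_mem g hg.1 s, h₂.conj_mem g hg.2 s⟩⟩
  have hK'n : K'.fixingSubgroup.Normal := by
    rw [hK'fix]
    exact hinf hnc (normal_fix_Cyc p 1)
  have hK'1 : K'.fixingSubgroup ≤ (Cyc p 1).fixingSubgroup := by
    rw [hK'fix]
    exact inf_le_right
  -- the level
  let m : ℕ := K'.fixingSubgroup.index
  obtain ⟨n, hn⟩ : ∃ n : ℕ, n = (∑ q ∈ S₀, padicValNat p ((q : ℕ) ^ m - 1)) + padicValNat p m :=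
    ⟨_, rfl⟩
  let N : ℕ := n + 1
  have hN1 : 1 + padicValNat p K'.fixingSubgroup.index ≤ N := by
    change 1 + padicValNat p m ≤ n + 1
    omega
  have hNq : ∀ q ∈ S₀, padicValNat p ((q : ℕ) ^ m - 1) ≤ N := by
    intro q hq
    have := Finset.single_le_sum (f := fun q : Nat.Primes => padicValNat p ((q : ℕ) ^ m - 1))
      (fun _ _ => Nat.zero_le _) hq
    change padicValNat p ((q : ℕ) ^ m - 1) ≤ n + 1
    omega
  have hKfix : (K' ⊔ Cyc p N).fixingSubgroup = K'.fixingSubgroup ⊓ (Cyc p N).fixingSubgroup :=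
    IntermediateField.fixingSubgroup_sup ..
  have hFfix : (K' ⊔ Cyc p (N + 1)).fixingSubgroup =
      K'.fixingSubgroup ⊓ (Cyc p (N + 1)).fixingSubgroup :=
    IntermediateField.fixingSubgroup_sup ..
  have hKn : (K' ⊔ Cyc p N).fixingSubgroup.Normal := by
    rw [hKfix]
    exact hinf hK'n (normal_fix_Cyc p N)
  have hFn : (K' ⊔ Cyc p (N + 1)).fixingSubgroup.Normal := by
    rw [hFfix]
    exact hinf hK'n (normal_fix_Cyc p (N + 1))
  obtain ⟨ζ, hζ⟩ := exists_prim p hp.out.ne_zero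
  have hζ1 : ζ ∈ Cyc p 1 := mem_Cyc (by rw [pow_one, hζ.pow_eq_one])
  -- the Sylow field
  obtain ⟨K₀, hK₀le, hK₀1, hK₀cop, b, hb⟩ := exists_sylow_field hK'n hK'1
  have hK₀unr : K₀.IsUnramifiedOutside S₀ := hK'unr.of_le hK₀le
  haveI := hK₀unr.1
  have hCK₀ : Cyc p 1 ≤ K₀ := le_of_fix hK₀1
  have hKunr : (K' ⊔ Cyc p N).IsUnramifiedOutside S₀ := hK'unr.sup (unr_Cyc hp.out N hpS)
  have hFunr : (K' ⊔ Cyc p (N + 1)).IsUnramifiedOutside S₀ :=
    hK'unr.sup (unr_Cyc hp.out (N + 1) hpS)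
  have hcyc₀ : CycExt p K₀ (K₀ ⊔ Cyc p 2) := by
    have h1 : ¬ K₀.fixingSubgroup ⊓ (Cyc p 1).fixingSubgroup ≤ (Cyc p (1 + 1)).fixingSubgroup := by
      rw [inf_eq_left.mpr hK₀1]
      exact moved_sylow hK₀cop
    have h2 := cycExt_sup (K' := K₀) (n := 1) le_rfl h1
    rwa [sup_eq_left.mpr hCK₀] at h2
  refine ⟨K' ⊔ Cyc p N, K' ⊔ Cyc p (N + 1), K₀, K₀ ⊔ Cyc p 2, ?_, hKn, hFn, ?_, ?_, hFunr, ?_, ?_,
    hcyc₀, hK₀cop, ?_, ?_, ?_⟩
  · exact ((IntermediateField.le_normalClosure K₁).trans le_sup_left).trans le_sup_left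
  · exact ⟨hpS, hKunr, ζ, (Cyc_mono (show 1 ≤ N by omega)).trans le_sup_right hζ1, hζ⟩
  · exact cycExt_sup (by omega) (exists_moved hp2 hN1)
  · exact hK₀le.trans le_sup_left
  · exact ⟨hpS, hK₀unr, ζ, hCK₀ hζ1, hζ⟩
  · obtain ⟨a, ha⟩ := relIndex_pow hK'1 n
    refine ⟨a + b, ?_⟩
    rw [hKfix]
    have h1 : K'.fixingSubgroup ⊓ (Cyc p N).fixingSubgroup ≤ K'.fixingSubgroup := inf_le_left
    have h2 : K'.fixingSubgroup ≤ K₀.fixingSubgroup :=
      IntermediateField.fixingSubgroup_antitone hK₀le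
    rw [← Subgroup.relIndex_mul_relIndex _ _ _ h1 h2, hb, inf_comm, Subgroup.inf_relIndex_right,
      pow_add, ha]
  · intro A q hq hA
    have key : ∀ k, 1 ≤ k → k ≤ N → (∃ g ∈ A.decompositionSubgroup ℚ ⊓ K'.fixingSubgroup,
        Lvl p g k) → ¬ DK A (K' ⊔ Cyc p N) ≤ (K' ⊔ Cyc p (N + 1)).fixingSubgroup := by
      rintro k hk hkN ⟨g, hg, hl⟩ hle
      refine not_le_of_lvl hp2 hk hkN hg hl ?_
      intro x hx
      have h1 : x ∈ DK A (K' ⊔ Cyc p N) := by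
        refine ⟨hx.1, ?_⟩
        rw [hKfix]
        exact hx.2
      have h2 := hle h1
      rw [hFfix] at h2
      exact h2.2
    by_cases hqp : (q : ℕ) = p
    · rw [hqp] at hA
      exact key _ (by omega) hN1 (lvl_p hp2 hA)
    · obtain ⟨φ, hφ⟩ := H05.exists_isFrobeniusAt q.2 hA
      obtain ⟨h1, h2⟩ := lvl_ne hK'1 q.2 hqp hA hφ
      exact key _ h1 (hNq q hq) h2
  · rintro q hq ⟨A, hA, hns, φ, hφ, hfr⟩ B hB
    have hqp : (q : ℕ) ≠ p := by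
      intro h
      apply hq
      have : q = pP p := Subtype.ext h
      rw [this]
      exact hpS
    obtain ⟨h1, h2⟩ := modEq_of_nonsplit hK₀1 q.2 hqp hA hφ hfr hns
    exact nonsplit_tower hp2 hK'n hN1 q.2 hqp hB h1 h2

/-- (E) with everything unramified outside `S₀` -/
theorem choiceStrong_of (hT : ExT p) (hp2 : p ≠ 2) (S₀ : Finset Nat.Primes)
    (K₁ : IntermediateField ℚ Qb) (hpS : pP p ∈ S₀) (hK₁ : K₁.IsUnramifiedOutside S₀) :
    ∃ (S : Finset Nat.Primes) (K F K₀ : IntermediateField ℚ Qb),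
      S₀ ⊆ S ∧ K₁ ≤ K ∧ K.fixingSubgroup.Normal ∧ SK p S₀ K ∧ CycExt p K F ∧
      F.IsUnramifiedOutside S₀ ∧ K₀ ≤ K ∧ SK p S₀ K₀ ∧ K₀.fixingSubgroup.index.Coprime p ∧
      (∃ n, K.fixingSubgroup.relIndex K₀.fixingSubgroup = p ^ n) ∧
      (∀ A : ValuationSubring Qb, ∀ q ∈ S, A.LiesOverPrime ((q : Nat.Primes) : ℕ) →
        ¬ DK A K ≤ F.fixingSubgroup) ∧ CC.ClTriv p S K ∧ CC.ClTriv p S K₀ := by
  classical
  obtain ⟨K, F, K₀, F₀, h1, hKn, hFn, h2, h3, h4, h5, h6, h7, h8, h9, h10, h11⟩ :=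
    exists_tower hp2 S₀ K₁ hpS hK₁
  obtain ⟨T, hT1, hT2⟩ := hT K F h3 S₀
  obtain ⟨T', hT1', hT2'⟩ := hT K₀ F₀ h7 S₀
  refine ⟨S₀ ∪ (T ∪ T'), K, F, K₀, Finset.subset_union_left, h1, hKn, h2, h3, h4, h5, h6, h8, h9,
    ?_, ?_, ?_⟩
  · intro A q hq hA
    rw [Finset.mem_union, Finset.mem_union] at hq
    rcases hq with hq | hq | hq
    · exact h10 A q hq hA
    · obtain ⟨-, B, hB, hns, -⟩ := hT1 q hq
      exact nonsplit_conj hKn hFn q.2 hB hA hns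
    · obtain ⟨hqS, hex⟩ := hT1' q hq
      exact h11 q hqS hex A hA
  · exact hT2 _ (Finset.subset_union_left.trans Finset.subset_union_right)
  · exact hT2' _ (Finset.subset_union_right.trans Finset.subset_union_right)

theorem sk_mono {S S' : Finset Nat.Primes} (h : S ⊆ S') {K : IntermediateField ℚ Qb}
    (hK : SK p S K) : SK p S' K :=
  ⟨h hK.pS, hK.unr.mono h, hK.root⟩

theorem choice_of (hT : ExT p) (hp2 : p ≠ 2) : CC.Choice p := by
  intro S₀ K₁ hpS hK₁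
  obtain ⟨S, K, F, K₀, h0, h1, h2, h3, h4, h5, h6, h7, h8, h9, h10, h11, h12⟩ :=
    choiceStrong_of hT hp2 S₀ K₁ hpS hK₁
  exact ⟨S, K, F, K₀, h0, h1, h2, sk_mono h0 h3, h4, h5.mono h0, h6, sk_mono h0 h7, h8, h9, h10,
    h11, h12⟩

/-- (E0) -/
theorem choice0 (hp2 : p ≠ 2) : CC.Choice0 p := by
  intro S₀ K₁ hpS hK₁
  obtain ⟨K, F, K₀, F₀, h1, hKn, hFn, h2, h3, h4, h5, h6, h7, h8, h9, h10, h11⟩ :=
    exists_tower hp2 S₀ K₁ hpS hK₁
  exact ⟨K, F, h1, hKn, h2, h3, h4, h10⟩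

end Fermat.Agent.H16.CH
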