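import Fermat.Agent.H16.CH.Tower

/-!
# Non-splitting
-/

set_option autoImplicit false
set_option linter.style.haveILetI false
set_option linter.unusedSectionVars false

noncomputable section

namespace Fermat.Agent.H16.CH

open Fermat.Agent.CC (Qb GQ PrimeUnder pP SK CycExt)
open Fermat.Agent.LF (DK DK_mono)
open IsDedekindDomain NumberField
open scoped Pointwise

variable {p : ℕ} [hp : Fact p.Prime]

theorem nonsplit_conj {K F : IntermediateField ℚ Qb} (hK : K.fixingSubgroup.Normal)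
    (hF : F.fixingSubgroup.Normal) {q : ℕ} (hq : q.Prime) {A B : ValuationSubring Qb}
    (hA : A.LiesOverPrime q) (hB : B.LiesOverPrime q) (h : ¬ DK A K ≤ F.fixingSubgroup) :
    ¬ DK B K ≤ F.fixingSubgroup := by
  haveI := H51.isGalois_Qbar
  obtain ⟨s, hs⟩ := H05.exists_smul_eq hq hA hB
  intro hle
  apply h
  intro g hg
  have h1 : s * g * s⁻¹ ∈ DK B K := by
    refine ⟨?_, hK.conj_mem g hg.2 s⟩
    have hgA : g • A = A := hg.1
    change (s * g * s⁻¹) • B = B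
    rw [← hs, mul_smul, mul_smul, inv_smul_smul, hgA]
  have h2 := hF.conj_mem _ (hle h1) s⁻¹
  have h3 : s⁻¹ * (s * g * s⁻¹) * s⁻¹⁻¹ = g := by group
  rwa [h3] at h2

/-- Frobenius elements of any norm -/
theorem frob_apply {A : ValuationSubring Qb} {ℓ m Q : ℕ} (hℓ : ℓ.Prime)
    (hA : A.LiesOverPrime ℓ) (hm : ¬ ℓ ∣ m) {σ : GQ} (hσ : A.IsFrobeniusAt σ Q)
    {x : Qb} (hx : x ^ m = 1) : σ x = x ^ Q := by
  have hm0 : m ≠ 0 := by rintro rfl; exact hm (dvd_zero _)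
  have hxA : x ∈ A := H05.mem_of_pow_eq_one A hm0 hx
  apply H05.rootsOfUnity_eq_of_residue_eq hℓ hA hm (m := m)
  · rw [← map_pow, hx, map_one]
  · rw [← pow_mul, mul_comm, pow_mul, hx, one_pow]
  · obtain ⟨h1, h2⟩ := hσ
    have h3 := h2 (IsLocalRing.residue A ⟨x, hxA⟩)
    have hσx : σ x ∈ A := by
      apply H05.mem_of_pow_eq_one A hm0
      rw [← map_pow, hx, map_one]
    have h4 : IsLocalRing.residue A ⟨σ x, hσx⟩ = IsLocalRing.residue A (⟨x, hxA⟩ ^ Q) := by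
      rw [map_pow]
      exact h3
    rw [← sub_eq_zero, ← map_sub, IsLocalRing.residue_eq_zero_iff,
      ← ValuationSubring.coe_mem_nonunits_iff] at h4
    exact h4

/-- `q ≡ 1 (mod p^n)` : the decomposition group acts trivially on `μ_{p^n}` -/
theorem dec_le_of_dvd {q : ℕ} (hq : q.Prime) (hqp : q ≠ p) {A : ValuationSubring Qb}
    (hA : A.LiesOverPrime q) {n : ℕ} (h : p ^ n ∣ q - 1) :
    A.decompositionSubgroup ℚ ≤ (Cyc p n).fixingSubgroup := by
  haveI := H51.isGalois_Qbar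
  haveI := fd_Cyc hp.out.ne_zero n
  haveI := normal_fix_Cyc p n
  haveI : IsGalois ℚ (Cyc p n) := (InfiniteGalois.normal_iff_isGalois (Cyc p n)).mp inferInstance
  intro g hg
  obtain ⟨φ, -, hφ⟩ := L00.Unr.exists_frob hq hA (⊥ : IntermediateField ℚ Qb)
  obtain ⟨f, hf0, hf⟩ := L00.Unr.exists_nrm_eq hq hA (⊥ : IntermediateField ℚ Qb)
  obtain ⟨k, τ, hτ, u, hu, rfl⟩ := L00.Unr.generation hq hA (⊥ : IntermediateField ℚ Qb)
    (Cyc p n) inferInstance bot_le (by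
      rw [IntermediateField.fixingSubgroup_bot]; exact Subgroup.mem_top φ) hφ hg
      (by rw [IntermediateField.fixingSubgroup_bot]; exact Subgroup.mem_top _)
  have h1 : φ ∈ (Cyc p n).fixingSubgroup := by
    rw [mem_fix_Cyc]
    intro x hx
    rw [frob_apply hq hA (not_dvd_pow hq hqp n) hφ hx, hf]
    have h2 : p ^ n ∣ q ^ f - 1 := by
      have := Nat.sub_dvd_pow_sub_pow q 1 f
      rw [one_pow] at this
      exact h.trans this
    obtain ⟨c, hc⟩ := h2
    have h3 : 1 ≤ q ^ f := Nat.one_le_pow _ _ hq.pos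
    rw [show q ^ f = p ^ n * c + 1 by omega, pow_succ, pow_mul, hx, one_pow, one_mul]
  have h2 : τ ∈ (Cyc p n).fixingSubgroup := by
    rw [mem_fix_Cyc]
    intro x hx
    exact H05.inertia_apply_rootOfUnity hq hA (not_dvd_pow hq hqp n) hτ.1 hx
  exact mul_mem (mul_mem (pow_mem h1 _) h2) hu.2

/-- if a degree-one place over `q` does not split in the `μ_{p²}`-extension then
`q ≡ 1 (mod p)`, `q ≢ 1 (mod p²)` -/
theorem modEq_of_nonsplit {K₀ : IntermediateField ℚ Qb}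
    (hK₀ : K₀.fixingSubgroup ≤ (Cyc p 1).fixingSubgroup) {q : ℕ} (hq : q.Prime) (hqp : q ≠ p)
    {A : ValuationSubring Qb} (hA : A.LiesOverPrime q) {φ : GQ} (hφ : φ ∈ DK A K₀)
    (hfr : A.IsFrobeniusAt φ q) (hns : ¬ DK A K₀ ≤ (K₀ ⊔ Cyc p 2).fixingSubgroup) :
    p ^ 1 ∣ q - 1 ∧ ¬ p ^ (1 + 1) ∣ q - 1 := by
  constructor
  · refine (fix_iff hp.out.ne_zero (g := φ) (n := 1) (k := 1) le_rfl hq.pos ?_).mp
      (mem_fix_Cyc.mp (hK₀ hφ.2))
    intro x hx
    exact frob_apply hq hA (not_dvd_pow hq hqp 1) hfr hx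
  · intro h2
    apply hns
    rw [IntermediateField.fixingSubgroup_sup]
    intro g hg
    exact ⟨hg.2, dec_le_of_dvd hq hqp hA h2 hg.1⟩

/-- such a `q` is nonsplit in the tower -/
theorem nonsplit_tower (hp2 : p ≠ 2) {K' : IntermediateField ℚ Qb} [FiniteDimensional ℚ K']
    (hn : K'.fixingSubgroup.Normal) {N : ℕ}
    (hN : 1 + padicValNat p K'.fixingSubgroup.index ≤ N) {q : ℕ} (hq : q.Prime) (hqp : q ≠ p)
    {A : ValuationSubring Qb} (hA : A.LiesOverPrime q) (h1 : p ^ 1 ∣ q - 1)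
    (h2 : ¬ p ^ (1 + 1) ∣ q - 1) :
    ¬ DK A (K' ⊔ Cyc p N) ≤ (K' ⊔ Cyc p (N + 1)).fixingSubgroup := by
  haveI := H51.isGalois_Qbar
  haveI := CC.fixingSubgroup_finiteIndex K'
  obtain ⟨φ, hφ⟩ := H05.exists_isFrobeniusAt hq hA
  have hm : K'.fixingSubgroup.index ≠ 0 := Subgroup.FiniteIndex.index_ne_zero
  have h3 : Lvl p (φ ^ K'.fixingSubgroup.index)
      (1 + padicValNat p K'.fixingSubgroup.index) :=
    lvl_pow hp2 le_rfl hm hq.pos (n := 1 + padicValNat p K'.fixingSubgroup.index + 1)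
      (fun x hx => frob_apply hq hA (not_dvd_pow hq hqp _) hφ hx) h1 h2 le_rfl
  intro hle
  refine not_le_of_lvl hp2 (D := A.decompositionSubgroup ℚ) (U := K'.fixingSubgroup) (by omega) hN
    ⟨pow_mem hφ.1 _, Subgroup.pow_index_mem _ φ⟩ h3 ?_
  intro g hg
  have h4 : g ∈ DK A (K' ⊔ Cyc p N) := by
    refine ⟨hg.1, ?_⟩
    rw [IntermediateField.fixingSubgroup_sup]
    exact hg.2
  have h5 := hle h4
  rw [IntermediateField.fixingSubgroup_sup] at h5
  exact h5.2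

end Fermat.Agent.H16.CH
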