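import Fermat.Agent.H16.CH.Index
import Fermat.Agent.L00.Unr4
import Fermat.Agent.CC.Iface3

/-!
# The tower `K' ⊔ ℚ(μ_{p^N})`
-/

set_option autoImplicit false
set_option linter.style.haveILetI false
set_option linter.unusedSectionVars false

noncomputable section

namespace Fermat.Agent.H16.CH

open Fermat.Agent.CC (Qb GQ PrimeUnder pP SK CycExt)
open Fermat.Agent.LF (DK DK_mono)
open IsDedekindDomain NumberField
open scoped Pointwise

variable {p : ℕ} [hp : Fact p.Prime]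

theorem pow_apply_of {g : GQ} {a : ℕ} {m : ℕ} (h : ∀ x : Qb, x ^ m = 1 → g x = x ^ a) (n : ℕ) :
    ∀ x : Qb, x ^ m = 1 → (g ^ n) x = x ^ a ^ n := by
  intro x hx
  induction n with
  | zero => rw [pow_zero, pow_zero, pow_one]; rfl
  | succ n ih =>
    rw [pow_succ', AlgEquiv.mul_apply, ih, map_pow, h x hx, ← pow_mul, pow_succ' a]

theorem not_dvd_pow {q : ℕ} (hq : q.Prime) (hqp : q ≠ p) (n : ℕ) : ¬ q ∣ p ^ n := fun hd =>
  hqp ((Nat.prime_dvd_prime_iff_eq hq hp.out).mp (hq.dvd_of_dvd_pow hd))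

theorem lvl_ne {U : Subgroup GQ} [U.Normal] [U.FiniteIndex]
    (hU : U ≤ (Cyc p 1).fixingSubgroup) {q : ℕ} (hq : q.Prime) (hqp : q ≠ p)
    {A : ValuationSubring Qb} {φ : GQ} (hA : A.LiesOverPrime q) (hφ : A.IsFrobeniusAt φ q) :
    1 ≤ padicValNat p (q ^ U.index - 1) ∧ ∃ g ∈ A.decompositionSubgroup ℚ ⊓ U,
      Lvl p g (padicValNat p (q ^ U.index - 1)) := by
  have h1 : ∀ (n : ℕ) (x : Qb), x ^ p ^ n = 1 → φ x = x ^ q := fun n x hx =>
    H05.IsFrobeniusAt.apply_rootOfUnity hq hA (not_dvd_pow hq hqp n) hφ hx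
  have h2 : ∀ (n : ℕ) (x : Qb), x ^ p ^ n = 1 → (φ ^ U.index) x = x ^ q ^ U.index :=
    fun n => pow_apply_of (h1 n) _
  have hgU : φ ^ U.index ∈ U := U.pow_index_mem φ
  have h3 : ∀ x : Qb, x ^ p = 1 → (φ ^ U.index) x = x := by
    intro x hx
    exact mem_fix_Cyc.mp (hU hgU) x (by rwa [pow_one])
  have hm : U.index ≠ 0 := Subgroup.FiniteIndex.index_ne_zero
  have h4 : 2 ≤ q ^ U.index := hq.two_le.trans (Nat.le_self_pow hm q)
  obtain ⟨h5, h6⟩ := lvl_of_exp h4 h2 h3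
  exact ⟨h5, φ ^ U.index, ⟨pow_mem hφ.1 _, hgU⟩, h6⟩

theorem lvl_p (hp2 : p ≠ 2) {U : Subgroup GQ} [U.Normal] [U.FiniteIndex]
    {A : ValuationSubring Qb} (hA : A.LiesOverPrime p) :
    ∃ g ∈ A.decompositionSubgroup ℚ ⊓ U, Lvl p g (1 + padicValNat p U.index) := by
  have hm : U.index ≠ 0 := Subgroup.FiniteIndex.index_ne_zero
  obtain ⟨g, hg⟩ := exists_gal (m := p ^ (1 + padicValNat p U.index + 1)) (a := p + 1)
    (pow_ne_zero _ hp.out.ne_zero) (by
      apply Nat.Coprime.pow_right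
      rw [Nat.coprime_comm]
      simp)
  obtain ⟨h, hD, hh⟩ := exists_dec_p (1 + padicValNat p U.index + 1) hA g
  have h1 : ∀ x : Qb, x ^ p ^ (1 + padicValNat p U.index + 1) = 1 → h x = x ^ (p + 1) :=
    fun x hx => (hh x hx).trans (hg x hx)
  refine ⟨h ^ U.index, ⟨pow_mem hD _, U.pow_index_mem h⟩, ?_⟩
  refine lvl_pow hp2 le_rfl hm (by omega) h1 ?_ ?_ le_rfl
  · rw [Nat.add_sub_cancel, pow_one]
  · rw [Nat.add_sub_cancel]
    intro hd
    have h2 := Nat.le_of_dvd hp.out.pos hd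
    have h3 := hp.out.one_lt
    have h4 : p ^ (1 + 1) = p * p := by ring
    rw [h4] at h2
    nlinarith

theorem not_le_of_lvl (hp2 : p ≠ 2) {D : Subgroup GQ} {U : Subgroup GQ} {k N : ℕ} (hk : 1 ≤ k)
    (hkN : k ≤ N) {g : GQ} (hg : g ∈ D ⊓ U) (hl : Lvl p g k) :
    ¬ D ⊓ (U ⊓ (Cyc p N).fixingSubgroup) ≤ (Cyc p (N + 1)).fixingSubgroup := by
  intro hle
  have h1 := hl.pow_prime hp2 (j := N - k) hk
  rw [show k + (N - k) = N by omega] at h1
  have h2 : g ^ p ^ (N - k) ∈ D ⊓ (U ⊓ (Cyc p N).fixingSubgroup) :=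
    ⟨pow_mem hg.1 _, pow_mem hg.2 _, mem_fix_Cyc.mpr h1.1⟩
  have h3 := mem_fix_Cyc.mp (hle h2)
  obtain ⟨x, hx, hne⟩ := h1.2
  exact hne (h3 x hx)

theorem exists_moved (hp2 : p ≠ 2) {U : Subgroup GQ} [U.Normal] [U.FiniteIndex] {N : ℕ}
    (hN : 1 + padicValNat p U.index ≤ N) :
    ¬ U ⊓ (Cyc p N).fixingSubgroup ≤ (Cyc p (N + 1)).fixingSubgroup := by
  intro hle
  obtain ⟨A, hA⟩ := H05.exists_liesOverPrime Qb hp.out
  obtain ⟨g, hg, hl⟩ := lvl_p hp2 (U := U) hA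
  exact not_le_of_lvl hp2 (by omega) hN hg hl (inf_le_right.trans hle)

/-- the cyclic extension -/
theorem cycExt_sup {K' : IntermediateField ℚ Qb} [FiniteDimensional ℚ K'] {n : ℕ} (hn : 1 ≤ n)
    (hne : ¬ K'.fixingSubgroup ⊓ (Cyc p n).fixingSubgroup ≤ (Cyc p (n + 1)).fixingSubgroup) :
    CycExt p (K' ⊔ Cyc p n) (K' ⊔ Cyc p (n + 1)) := by
  haveI := fd_Cyc hp.out.ne_zero n
  haveI := fd_Cyc hp.out.ne_zero (n + 1)
  have h2 : (Cyc p (n + 1)).fixingSubgroup ≤ (Cyc p n).fixingSubgroup :=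
    IntermediateField.fixingSubgroup_antitone (Cyc_mono (by omega))
  refine ⟨IntermediateField.finiteDimensional_sup _ _, IntermediateField.finiteDimensional_sup _ _,
    sup_le_sup_left (Cyc_mono (by omega)) _, ?_, ?_⟩
  · rw [IntermediateField.fixingSubgroup_sup, IntermediateField.fixingSubgroup_sup]
    haveI := normal_fix_Cyc p (n + 1)
    refine ⟨fun x hx g => ?_⟩
    rw [Subgroup.mem_subgroupOf] at hx ⊢
    refine ⟨?_, Subgroup.Normal.conj_mem this _ hx.2 _⟩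
    exact K'.fixingSubgroup.mul_mem (K'.fixingSubgroup.mul_mem g.2.1 hx.1)
      (K'.fixingSubgroup.inv_mem g.2.1)
  · rw [IntermediateField.fixingSubgroup_sup, IntermediateField.fixingSubgroup_sup]
    have h3 := relIndex_eq (U := K'.fixingSubgroup ⊓ (Cyc p n).fixingSubgroup) hn inf_le_right hne
    rw [← Subgroup.inf_relIndex_right (Cyc p (n + 1)).fixingSubgroup] at h3
    have h4 : K'.fixingSubgroup ⊓ (Cyc p (n + 1)).fixingSubgroup =
        (Cyc p (n + 1)).fixingSubgroup ⊓ (K'.fixingSubgroup ⊓ (Cyc p n).fixingSubgroup) := by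
      ext g
      simp only [Subgroup.mem_inf]
      constructor
      · rintro ⟨ha, hb⟩
        exact ⟨hb, ha, h2 hb⟩
      · rintro ⟨hb, ha, -⟩
        exact ⟨ha, hb⟩
    rw [h4]
    exact h3

/-! ### the Sylow field -/

theorem exists_sylow_field {K' : IntermediateField ℚ Qb} [FiniteDimensional ℚ K']
    (hn : K'.fixingSubgroup.Normal) (h1 : K'.fixingSubgroup ≤ (Cyc p 1).fixingSubgroup) :
    ∃ K₀ : IntermediateField ℚ Qb, K₀ ≤ K' ∧ K₀.fixingSubgroup ≤ (Cyc p 1).fixingSubgroup ∧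
      K₀.fixingSubgroup.index.Coprime p ∧
      ∃ n, K'.fixingSubgroup.relIndex K₀.fixingSubgroup = p ^ n := by
  haveI := H51.isGalois_Qbar
  haveI := CC.fixingSubgroup_finiteIndex K'
  let U : Subgroup GQ := K'.fixingSubgroup
  haveI : Finite (GQ ⧸ U) := Subgroup.finite_quotient_of_finiteIndex
  obtain ⟨P⟩ : Nonempty (Sylow p (GQ ⧸ U)) := inferInstance
  let U₀ : Subgroup GQ := (P : Subgroup (GQ ⧸ U)).comap (QuotientGroup.mk' U)
  have hUU : U ≤ U₀ := by
    intro g hg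
    change (QuotientGroup.mk' U) g ∈ (P : Subgroup (GQ ⧸ U))
    have : (QuotientGroup.mk' U) g = 1 := (QuotientGroup.eq_one_iff g).mpr hg
    rw [this]
    exact one_mem _
  have hopenU : IsOpen (U : Set GQ) := IntermediateField.fixingSubgroup_isOpen K'
  have hopen : IsOpen (U₀ : Set GQ) := Subgroup.isOpen_mono hUU hopenU
  have hclosed : IsClosed (U₀ : Set GQ) := U₀.isClosed_of_isOpen hopen
  have hfix : (IntermediateField.fixedField U₀).fixingSubgroup = U₀ :=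
    InfiniteGalois.fixingSubgroup_fixedField (⟨U₀, hclosed⟩ : ClosedSubgroup GQ)
  refine ⟨IntermediateField.fixedField U₀, ?_, ?_, ?_, ?_⟩
  · intro x hx
    have h2 : x ∈ IntermediateField.fixedField K'.fixingSubgroup := by
      rw [IntermediateField.mem_fixedField_iff] at hx ⊢
      exact fun f hf => hx f (hUU hf)
    rwa [InfiniteGalois.fixedField_fixingSubgroup] at h2
  · rw [hfix]
    intro g hg
    have hgP : (QuotientGroup.mk' U) g ∈ (P : Subgroup (GQ ⧸ U)) := hg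
    obtain ⟨j, hj⟩ := P.isPGroup' ⟨_, hgP⟩
    have hgU : g ^ p ^ j ∈ U := by
      rw [← QuotientGroup.eq_one_iff]
      have := congrArg Subtype.val hj
      exact this
    rw [mem_fix_Cyc]
    obtain ⟨a, ha, hga⟩ := exists_exp g (m := p ^ 1) (pow_ne_zero _ hp.out.ne_zero)
    have h2 := pow_apply_of hga (p ^ j)
    have h3 := (fix_iff hp.out.ne_zero (n := 1) (k := 1) le_rfl
      (Nat.one_le_pow _ _ (by omega)) h2).mp (mem_fix_Cyc.mp (h1 hgU))
    refine (fix_iff hp.out.ne_zero (n := 1) (k := 1) le_rfl ha hga).mpr ?_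
    rw [pow_one] at h3 ⊢
    have h4 : ((a ^ p ^ j : ℕ) : ZMod p) = 1 := by
      have h5 := (ZMod.natCast_eq_zero_iff _ _).mpr h3
      rw [Nat.cast_sub (Nat.one_le_pow _ _ (by omega)), Nat.cast_one, sub_eq_zero] at h5
      exact h5
    rw [Nat.cast_pow, ZMod.pow_card_pow] at h4
    rw [← ZMod.natCast_eq_zero_iff, Nat.cast_sub ha, Nat.cast_one, h4, sub_self]
  · rw [hfix]
    have h2 : U₀.index = (P : Subgroup (GQ ⧸ U)).index :=
      Subgroup.index_comap_of_surjective _ (QuotientGroup.mk'_surjective U)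
    rw [h2, Nat.coprime_comm, hp.out.coprime_iff_not_dvd]
    exact P.not_dvd_index
  · rw [hfix]
    obtain ⟨n, hn'⟩ := (IsPGroup.iff_card.mp P.isPGroup')
    refine ⟨n, ?_⟩
    rw [← hn']
    have h2 : K'.fixingSubgroup = (QuotientGroup.mk' U).ker := (QuotientGroup.ker_mk' U).symm
    rw [h2, Subgroup.relIndex_ker,
      Subgroup.map_comap_eq_self_of_surjective (QuotientGroup.mk'_surjective U)]

theorem moved_one : ¬ (Cyc p 1).fixingSubgroup ≤ (Cyc p 2).fixingSubgroup := by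
  intro hle
  obtain ⟨g, hg⟩ := exists_gal (m := p ^ 2) (a := p + 1)
    (pow_ne_zero _ hp.out.ne_zero) (by
      apply Nat.Coprime.pow_right
      rw [Nat.coprime_comm]
      simp)
  have h1 := (fix_iff hp.out.ne_zero (n := 2) (k := 1) (by omega) (by omega) hg).mpr
    (by rw [pow_one, Nat.add_sub_cancel])
  have h2 := hle (mem_fix_Cyc.mpr h1)
  have h3 := (fix_iff hp.out.ne_zero (n := 2) (k := 2) (by omega) (by omega) hg).mp
    (mem_fix_Cyc.mp h2)
  rw [Nat.add_sub_cancel] at h3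
  have h4 := Nat.le_of_dvd hp.out.pos h3
  have h5 := hp.out.one_lt
  nlinarith

theorem moved_sylow {K₀ : IntermediateField ℚ Qb}
    (h2 : K₀.fixingSubgroup.index.Coprime p) :
    ¬ K₀.fixingSubgroup ≤ (Cyc p 2).fixingSubgroup := by
  intro hle
  have h3 := relIndex_eq (p := p) (U := (Cyc p 1).fixingSubgroup) (n := 1) le_rfl le_rfl moved_one
  have h4 : (Cyc p 2).fixingSubgroup ≤ (Cyc p 1).fixingSubgroup :=
    IntermediateField.fixingSubgroup_antitone (Cyc_mono (by omega))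
  have h5 := Subgroup.relIndex_dvd_index_of_le h4
  rw [h3] at h5
  have h6 := h5.trans (Subgroup.index_dvd_of_le hle)
  rw [Nat.coprime_comm, hp.out.coprime_iff_not_dvd] at h2
  exact h2 h6

end Fermat.Agent.H16.CH
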